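import Fermat.Agent.H41.DS.DepletionMatrix
import Fermat.Agent.H98.DS.Congruence

/-!
# P-DS / DS-2c-step, part 2: one step of the depletion
-/

set_option autoImplicit false
set_option linter.unusedSimpArgs false

open UpperHalfPlane CongruenceSubgroup ModularFormClass Matrix Matrix.SpecialLinearGroup
open scoped MatrixGroups ModularForm Pointwise

namespace Fermat.Agent.H41.DS

open Fermat.Agent.H20.DS Fermat.Agent.H98.DS

/-- `Γ₁(N r) ≤ α_j⁻¹ Γ₁(N) α_j` for `r ∣ N`. -/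
theorem gamma1_le_conj (N r : ℕ) (hr0 : r ≠ 0) (hrN : r ∣ N) (j : ℤ) :
    ((Gamma1 (N * r) : Subgroup SL(2, ℤ)) : Subgroup (GL (Fin 2) ℝ)) ≤
      ConjAct.toConjAct (tmat (j / r))⁻¹ •
        ((Gamma1 N : Subgroup SL(2, ℤ)) : Subgroup (GL (Fin 2) ℝ)) := by
  intro g hg
  obtain ⟨γ, hγ, rfl⟩ := Subgroup.mem_map.mp hg
  rw [map_inv, Subgroup.mem_inv_pointwise_smul_iff, ConjAct.toConjAct_smul]
  have hγ1 := (Gamma1_mem (N * r) γ).mp hγ
  have h0 : γ ∈ Gamma0 (N * r) := (Gamma0_mem).mpr hγ1.2.2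
  have hdvd : (r : ℤ) ∣ j * γ 1 1 - j * γ 0 0 := by
    have h1 : (((γ 1 1 - γ 0 0 : ℤ)) : ZMod (N * r)) = 0 := by
      push_cast
      rw [hγ1.1, hγ1.2.1, sub_self]
    have h2 : ((N * r : ℕ) : ℤ) ∣ γ 1 1 - γ 0 0 := (ZMod.intCast_zmod_eq_zero_iff_dvd _ _).mp h1
    have h3 : (r : ℤ) ∣ γ 1 1 - γ 0 0 :=
      dvd_trans (by exact_mod_cast (Dvd.intro_left N rfl : r ∣ N * r)) h2
    rw [← mul_sub]
    exact dvd_mul_of_dvd_right h3 j
  obtain ⟨γ', hγ', h11, h00, hmat⟩ := exists_conj_tmat N r hr0 hrN γ h0 j j hdvd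
  have hN : N ∣ N * r := Dvd.intro r rfl
  have e11 : ((γ 1 1 : ℤ) : ZMod N) = 1 := by
    have := intCast_zmod_eq_of_dvd hN (a := γ 1 1) (b := 1) (by simpa using hγ1.2.1)
    simpa using this
  have e00 : ((γ 0 0 : ℤ) : ZMod N) = 1 := by
    have := intCast_zmod_eq_of_dvd hN (a := γ 0 0) (b := 1) (by simpa using hγ1.1)
    simpa using this
  have hγ'1 : γ' ∈ Gamma1 N := by
    rw [Gamma1_mem]
    exact ⟨h00.trans e00, h11.trans e11, (Gamma0_mem).mp hγ'⟩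
  rw [hmat, mul_assoc, mul_inv_cancel, mul_one]
  exact Subgroup.mem_map_of_mem _ hγ'1

/-- The translate `f(z + j/r)` as a cusp form on `Γ₁(N r)`. -/
noncomputable def trForm {N : ℕ} (r : ℕ) (hr0 : r ≠ 0) (hrN : r ∣ N) (f : CuspForm (Gamma1 N) 1)
    (j : ℤ) : CuspForm (Gamma1 (N * r)) 1 :=
  cuspRestr (gamma1_le_conj N r hr0 hrN j) (CuspForm.translate f (tmat (j / r)))

lemma coe_trForm {N : ℕ} (r : ℕ) (hr0 : r ≠ 0) (hrN : r ∣ N) (f : CuspForm (Gamma1 N) 1)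
    (j : ℤ) : (⇑(trForm r hr0 hrN f j) : ℍ → ℂ) = (⇑f) ∣[(1 : ℤ)] tmat (j / r) := rfl

lemma trForm_apply {N : ℕ} (r : ℕ) (hr0 : r ≠ 0) (hrN : r ∣ N) (f : CuspForm (Gamma1 N) 1)
    (j : ℤ) (τ : ℍ) : trForm r hr0 hrN f j τ = f (((j : ℝ) / r) +ᵥ τ) := by
  rw [coe_trForm, slash_tmat]

/-- The nebentypus transformation of the translates. -/
theorem trForm_slash {N : ℕ} (ε : DirichletCharacter ℂ N) (r : ℕ) (hr0 : r ≠ 0) (hrN : r ∣ N)
    (f : CuspForm (Gamma1 N) 1) (hf : HasNebentypus 1 ε (⇑f)) (γ : SL(2, ℤ))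
    (hγ : γ ∈ Gamma0 (N * r)) (j j' : ℤ) (hjj : (r : ℤ) ∣ j * γ 1 1 - j' * γ 0 0) :
    (⇑(trForm r hr0 hrN f j) : ℍ → ℂ) ∣[(1 : ℤ)] γ =
      ε (((γ 1 1 : ℤ)) : ZMod N) • (⇑(trForm r hr0 hrN f j') : ℍ → ℂ) := by
  obtain ⟨γ', hγ', h11, -, hmat⟩ := exists_conj_tmat N r hr0 hrN γ hγ j j' hjj
  have hmat' : tmat (j / r) * (γ : GL (Fin 2) ℝ) = (γ' : GL (Fin 2) ℝ) * tmat (j' / r) := hmat
  rw [coe_trForm, coe_trForm, ModularForm.SL_slash, ← SlashAction.slash_mul, hmat',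
    SlashAction.slash_mul, ← ModularForm.SL_slash, hf γ' hγ', smul_slash_tmat, h11]

end Fermat.Agent.H41.DS

namespace Fermat.Agent.H41.DS

open Fermat.Agent.H20.DS Fermat.Agent.H98.DS

/-- The sum of the `r` translates `f(z + j/r)`. -/
noncomputable def trSum {N : ℕ} (r : ℕ) [NeZero r] (hrN : r ∣ N) (f : CuspForm (Gamma1 N) 1) :
    CuspForm (Gamma1 (N * r)) 1 :=
  ∑ x : ZMod r, trForm r (NeZero.ne r) hrN f ((x.val : ℕ) : ℤ)

/-- The `r`-depletion `f - (1/r) ∑_j f(z + j/r)`. -/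
noncomputable def depl {N : ℕ} (r : ℕ) [NeZero r] (hrN : r ∣ N) (f : CuspForm (Gamma1 N) 1) :
    CuspForm (Gamma1 (N * r)) 1 :=
  cuspRestr (gamma1_map_le_of_dvd (Dvd.intro r rfl)) f - (1 / (r : ℂ)) • trSum r hrN f

lemma coe_trSum {N : ℕ} (r : ℕ) [NeZero r] (hrN : r ∣ N) (f : CuspForm (Gamma1 N) 1) :
    (⇑(trSum r hrN f) : ℍ → ℂ) =
      ∑ x : ZMod r, (⇑(trForm r (NeZero.ne r) hrN f ((x.val : ℕ) : ℤ)) : ℍ → ℂ) := by
  unfold trSum
  exact map_sum (FunLike.coeAddMonoidHom (CuspForm (Gamma1 (N * r)) 1) ℍ ℂ) _ _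

lemma coe_depl {N : ℕ} (r : ℕ) [NeZero r] (hrN : r ∣ N) (f : CuspForm (Gamma1 N) 1) :
    (⇑(depl r hrN f) : ℍ → ℂ) = ⇑f - (1 / (r : ℂ)) •
      ∑ x : ZMod r, (⇑(trForm r (NeZero.ne r) hrN f ((x.val : ℕ) : ℤ)) : ℍ → ℂ) := by
  rw [← coe_trSum]
  rfl

end Fermat.Agent.H41.DS

namespace Fermat.Agent.H41.DS

open Fermat.Agent.H20.DS Fermat.Agent.H98.DS

/-- The nebentypus of the depletion. -/
theorem depl_nebentypus {N : ℕ} (ε : DirichletCharacter ℂ N) (r : ℕ) [NeZero r]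
    (hrN : r ∣ N) (f : CuspForm (Gamma1 N) 1) (hf : HasNebentypus 1 ε (⇑f)) :
    HasNebentypus 1 (DirichletCharacter.changeLevel (Dvd.intro r rfl) ε) (⇑(depl r hrN f)) := by
  intro γ hγ
  have hdet : γ 0 0 * γ 1 1 - γ 0 1 * γ 1 0 = 1 := by
    have := γ.2
    rwa [Matrix.det_fin_two] at this
  have hc : ((N * r : ℕ) : ℤ) ∣ γ 1 0 :=
    (ZMod.intCast_zmod_eq_zero_iff_dvd _ _).mp ((Gamma0_mem).mp hγ)
  obtain ⟨c₀, hc₀⟩ := hc
  have hcop : IsCoprime (γ 1 1) ((N * r : ℕ) : ℤ) := by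
    refine ⟨γ 0 0, -(γ 0 1 * c₀), ?_⟩
    rw [hc₀] at hdet
    linear_combination hdet
  have hψ : DirichletCharacter.changeLevel (Dvd.intro r rfl : N ∣ N * r) ε
      (((γ 1 1 : ℤ)) : ZMod (N * r)) = ε (((γ 1 1 : ℤ)) : ZMod N) :=
    DirichletCharacter.changeLevel_eq_cast_of_dvd' ε _ hcop
  rw [hψ, coe_depl]
  have h0N : γ ∈ Gamma0 N := gamma0_le_of_dvd (Dvd.intro r rfl) hγ
  have hfγ := hf γ h0N
  -- `a d = 1` modulo `r`
  have hda : (((γ 1 1 : ℤ)) : ZMod r) * (((γ 0 0 : ℤ)) : ZMod r) = 1 := by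
    have h1 : (((γ 0 0 * γ 1 1 - γ 0 1 * γ 1 0 : ℤ)) : ZMod r) = 1 := by rw [hdet]; simp
    have h2 : (((γ 1 0 : ℤ)) : ZMod r) = 0 := by
      rw [ZMod.intCast_zmod_eq_zero_iff_dvd, hc₀]
      exact dvd_mul_of_dvd_left (by exact_mod_cast (Dvd.intro_left N rfl : r ∣ N * r)) _
    push_cast at h1
    rw [h2, mul_zero, sub_zero] at h1
    rw [mul_comm]; exact h1
  set d' : ZMod r := (((γ 1 1 : ℤ)) : ZMod r) with hd'
  set a' : ZMod r := (((γ 0 0 : ℤ)) : ZMod r) with ha'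
  let u : (ZMod r)ˣ := ⟨d' ^ 2, a' ^ 2, by rw [← mul_pow, hda, one_pow],
    by rw [← mul_pow, mul_comm, hda, one_pow]⟩
  have htr : ∀ x : ZMod r,
      (⇑(trForm r (NeZero.ne r) hrN f ((x.val : ℕ) : ℤ)) : ℍ → ℂ) ∣[(1 : ℤ)] γ =
        ε (((γ 1 1 : ℤ)) : ZMod N) •
          (⇑(trForm r (NeZero.ne r) hrN f (((x * u).val : ℕ) : ℤ)) : ℍ → ℂ) := by
    intro x
    apply trForm_slash ε r (NeZero.ne r) hrN f hf γ hγ
    rw [← ZMod.intCast_zmod_eq_zero_iff_dvd]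
    push_cast
    rw [ZMod.natCast_zmod_val, ZMod.natCast_zmod_val, ← hd', ← ha']
    show x * d' - x * d' ^ 2 * a' = 0
    have : x * d' - x * d' ^ 2 * a' = x * d' * (1 - d' * a') := by ring
    rw [this, hda, sub_self, mul_zero]
  have hperm : ∑ x : ZMod r,
      (⇑(trForm r (NeZero.ne r) hrN f (((x * u).val : ℕ) : ℤ)) : ℍ → ℂ) =
      ∑ x : ZMod r, (⇑(trForm r (NeZero.ne r) hrN f ((x.val : ℕ) : ℤ)) : ℍ → ℂ) :=
    Equiv.sum_comp (Units.mulRight u)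
      (fun x : ZMod r => (⇑(trForm r (NeZero.ne r) hrN f ((x.val : ℕ) : ℤ)) : ℍ → ℂ))
  rw [sub_eq_add_neg, SlashAction.add_slash, SlashAction.neg_slash, ModularForm.SL_smul_slash,
    SlashAction.sum_slash]
  simp_rw [htr]
  rw [← Finset.smul_sum, hfγ, hperm, smul_add, smul_neg, smul_comm]

end Fermat.Agent.H41.DS

namespace Fermat.Agent.H41.DS

open Fermat.Agent.H20.DS Fermat.Agent.H98.DS

local notation "𝕢" => Function.Periodic.qParam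

lemma qParam_vadd (r : ℕ) [NeZero r] (x : ZMod r) (τ : ℍ) :
    𝕢 1 (((((x.val : ℕ) : ℤ) : ℝ) / r +ᵥ τ : ℍ) : ℂ) = 𝕢 1 (τ : ℂ) * ZMod.stdAddChar x := by
  have hx : ZMod.stdAddChar x = Complex.exp (2 * Real.pi * Complex.I * ((x.val : ℕ) : ℤ) / r) := by
    rw [← ZMod.stdAddChar_coe]
    simp
  rw [hx, Function.Periodic.qParam, Function.Periodic.qParam, ← Complex.exp_add, coe_vadd]
  congr 1
  push_cast
  ring

/-- The `q`-expansion of the depletion. -/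
theorem qCoeff_depl {N : ℕ} (r : ℕ) [NeZero r] (hrN : r ∣ N) (f : CuspForm (Gamma1 N) 1)
    (n : ℕ) : qCoeff (depl r hrN f) n = if r ∣ n then 0 else qCoeff f n := by
  have h1N := one_mem_strictPeriods_gamma1 N
  have h1Nr := one_mem_strictPeriods_gamma1 (N * r)
  have hcusp : Fact (IsCusp OnePoint.infty (Gamma1 N : Subgroup (GL (Fin 2) ℝ))) :=
    ⟨Subgroup.isCusp_of_mem_strictPeriods one_pos h1N⟩
  have hr0 : (r : ℂ) ≠ 0 := by exact_mod_cast NeZero.ne r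
  symm
  refine ModularFormClass.qExpansion_coeff_unique
    (c := fun n => if r ∣ n then 0 else qCoeff f n) one_pos h1Nr (f := depl r hrN f)
    (fun τ => ?_) n
  have hf0 : HasSum (fun m : ℕ => (qExpansion 1 f).coeff m * 𝕢 1 (τ : ℂ) ^ m) (f τ) :=
    ModularForm.hasSum_qExpansion f one_pos h1N τ
  have hfx : ∀ x : ZMod r, HasSum (fun m : ℕ => (qExpansion 1 f).coeff m *
      (𝕢 1 (τ : ℂ) ^ m * ZMod.stdAddChar (x * (m : ZMod r))))
      (f ((((x.val : ℕ) : ℤ) : ℝ) / r +ᵥ τ)) := by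
    intro x
    have h := ModularForm.hasSum_qExpansion f one_pos h1N ((((x.val : ℕ) : ℤ) : ℝ) / r +ᵥ τ)
    have hfun : (fun m : ℕ => (qExpansion 1 f).coeff m *
        (𝕢 1 (τ : ℂ) ^ m * ZMod.stdAddChar (x * (m : ZMod r)))) =
        fun m : ℕ => (qExpansion 1 f).coeff m *
          𝕢 1 (((((x.val : ℕ) : ℤ) : ℝ) / r +ᵥ τ : ℍ) : ℂ) ^ m := by
      funext m
      rw [qParam_vadd, mul_pow, ← AddChar.map_nsmul_eq_pow, nsmul_eq_mul, mul_comm (m : ZMod r)]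
    rw [hfun]
    exact h
  have hS := hasSum_sum (s := (Finset.univ : Finset (ZMod r))) (fun x _ => hfx x)
  have hcomb := hf0.sub (hS.mul_left (1 / (r : ℂ)))
  have hval : depl r hrN f τ = f τ - 1 / (r : ℂ) *
      ∑ x : ZMod r, f ((((x.val : ℕ) : ℤ) : ℝ) / r +ᵥ τ) := by
    have := congrFun (coe_depl r hrN f) τ
    rw [this]
    simp only [Pi.sub_apply, Pi.smul_apply, Finset.sum_apply, smul_eq_mul, trForm_apply]
  rw [hval]
  have hfun2 : (fun m : ℕ => (fun n => if r ∣ n then 0 else qCoeff f n) m • 𝕢 1 (τ : ℂ) ^ m) =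
      fun m : ℕ => (qExpansion 1 f).coeff m * 𝕢 1 (τ : ℂ) ^ m - 1 / (r : ℂ) *
        ∑ x : ZMod r, (qExpansion 1 f).coeff m *
          (𝕢 1 (τ : ℂ) ^ m * ZMod.stdAddChar (x * (m : ZMod r))) := by
    funext m
    rw [← Finset.mul_sum, ← Finset.mul_sum,
      AddChar.sum_mulShift (m : ZMod r) (ZMod.isPrimitive_stdAddChar r), ZMod.card]
    simp only [smul_eq_mul, qCoeff]
    by_cases hm : r ∣ m
    · have : (m : ZMod r) = 0 := (ZMod.natCast_eq_zero_iff m r).mpr hm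
      rw [if_pos hm, if_pos this]
      field_simp
      ring
    · have : (m : ZMod r) ≠ 0 := fun h => hm ((ZMod.natCast_eq_zero_iff m r).mp h)
      rw [if_neg hm, if_neg this]
      simp
  rw [hfun2]
  exact hcomb

/-- **DS-2c-step.** -/
theorem depletionStep : DepletionStepStatement := by
  intro N _ ε f hf r hr hrN
  have : NeZero r := ⟨hr.ne_zero⟩
  exact ⟨depl r hrN f, depl_nebentypus ε r hrN f hf, fun n => qCoeff_depl r hrN f n⟩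

end Fermat.Agent.H41.DS
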