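import Fermat.Agent.H41.DS.EisOneBounded

/-!
# P-DS / DS-2E, part 1: the `q`-expansion of `eisOne ℓ (0, a)`

`eisOneQExp : CotExpansionStatement → EisOneQExpStatement`.
-/

set_option autoImplicit false

namespace Fermat.Agent.H41.DS

open Complex Fermat.Agent.H6.DS
open scoped Real

/-- `c(k) = ζ^{-a k} - ζ^{a k}`, `ζ = e^{2 π i / ℓ}`. -/
noncomputable def cCoef (ℓ : ℕ) (a : ℤ) (k : ℕ) : ℂ :=
  -(Complex.exp (2 * π * I * (a * k) / ℓ) - Complex.exp (-(2 * π * I * (a * k) / ℓ)))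

lemma phiCoeff_eq_sum (ℓ : ℕ) (a : ℤ) (n : ℕ) :
    phiCoeff ℓ a n = ∑ k ∈ n.divisors, cCoef ℓ a k := by
  simp only [phiCoeff, cCoef, Finset.sum_neg_distrib]

lemma cCoef_eq (ℓ : ℕ) (a : ℤ) (k : ℕ) :
    cCoef ℓ a k = ((ee ((a : ℂ) / ℓ))⁻¹) ^ k - (ee ((a : ℂ) / ℓ)) ^ k := by
  rw [cCoef, ← ee_neg, ← ee_nat_mul, ← ee_nat_mul, ee, ee]
  have e1 : 2 * (π : ℂ) * I * ((k : ℂ) * -((a : ℂ) / ℓ)) = -(2 * π * I * (a * k) / ℓ) := by ring
  have e2 : 2 * (π : ℂ) * I * ((k : ℂ) * ((a : ℂ) / ℓ)) = 2 * π * I * (a * k) / ℓ := by ring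
  rw [e1, e2]
  ring

lemma norm_ee_ofReal_div (a : ℤ) (ℓ : ℕ) : ‖ee ((a : ℂ) / ℓ)‖ = 1 := by
  rw [norm_ee]
  have : ((a : ℂ) / ℓ).im = 0 := by
    have : (a : ℂ) / ℓ = (((a : ℝ) / ℓ : ℝ) : ℂ) := by push_cast; rfl
    rw [this, Complex.ofReal_im]
  rw [this]
  simp

lemma norm_cCoef_le (ℓ : ℕ) (a : ℤ) (k : ℕ) : ‖cCoef ℓ a k‖ ≤ 2 := by
  rw [cCoef_eq]
  refine (norm_sub_le _ _).trans ?_
  rw [norm_pow, norm_pow, norm_inv, norm_ee_ofReal_div]
  norm_num

/-- (DS-2E1) the `q`-expansion of `eisOne ℓ (0, a)`. -/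
theorem eisOneQExp (hcot : CotExpansionStatement) : EisOneQExpStatement := by
  intro ℓ hℓ a ha z hz
  have hℓne : (ℓ : ℂ) ≠ 0 := by exact_mod_cast (by omega : ℓ ≠ 0)
  set u : ℂ := (a : ℂ) / ℓ with hu
  set q : ℂ := ee z with hq
  set w : ℂ := ee u with hw
  have hqn : ‖q‖ < 1 := norm_ee_lt_one hz
  have hwn : ‖w‖ = 1 := norm_ee_ofReal_div a ℓ
  have hw0 : w ≠ 0 := ee_ne_zero _
  have huim : u.im = 0 := by
    have : (a : ℂ) / ℓ = (((a : ℝ) / ℓ : ℝ) : ℂ) := by push_cast; rfl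
    rw [hu, this, Complex.ofReal_im]
  have hnint : ∀ n : ℤ, u ≠ n := by
    intro n hn
    apply ha
    rw [hu, div_eq_iff hℓne] at hn
    refine ⟨n, ?_⟩
    have : ((a : ℤ) : ℂ) = ((n * ℓ : ℤ) : ℂ) := by push_cast; exact hn
    have := Int.cast_injective this
    rw [this]; ring
  have hsum := hasSum_cotPair hcot hz (by rw [huim]; simpa using hz) hnint
  have h2pi : (2 : ℂ) * π * I ≠ 0 := by
    simp [Real.pi_ne_zero]
  -- the double family
  set G : ℕ+ × ℕ+ → ℂ := fun c => cCoef ℓ a c.2 * q ^ ((c.1 : ℕ) * (c.2 : ℕ)) with hG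
  -- (i) summability
  have hsummable : Summable G := by
    have h0 := summable_prod_mul_pow (𝕜 := ℝ) 0 (r := ‖q‖) (by simpa using hqn)
    simp only [pow_zero, one_mul] at h0
    refine Summable.of_norm_bounded (h0.mul_left 2) fun c => ?_
    rw [hG]
    simp only [norm_mul, norm_pow]
    gcongr
    exact norm_cCoef_le ℓ a _
  -- (ii) the inner sums
  have hinner : ∀ m : ℕ+, HasSum (fun k : ℕ+ => G (m, k)) (cotPair z u m / (2 * π * I)) := by
    intro m
    have hmpos : (0 : ℝ) < (m : ℕ) := by exact_mod_cast m.pos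
    have him1 : 0 < (((m : ℕ) : ℂ) * z - u).im := by
      simp only [sub_im, mul_im, natCast_re, natCast_im, zero_mul, add_zero, huim, sub_zero]
      positivity
    have him2 : 0 < (u + ((m : ℕ) : ℂ) * z).im := by
      simp only [add_im, mul_im, natCast_re, natCast_im, zero_mul, add_zero, huim, zero_add]
      positivity
    have e1 : ee (((m : ℕ) : ℂ) * z - u) = q ^ (m : ℕ) * w⁻¹ := by
      rw [ee_sub, ee_nat_mul]
    have e2 : ee (u + ((m : ℕ) : ℂ) * z) = w * q ^ (m : ℕ) := by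
      rw [ee_add, ee_nat_mul]
    have hs1 := hasSum_pow_succ (norm_ee_lt_one him1)
    have hs2 := hasSum_pow_succ (norm_ee_lt_one him2)
    have hs := hs1.sub hs2
    rw [cotPair_eq z u m him1 him2, mul_div_cancel_left₀ _ h2pi]
    rw [hasSum_pnat_iff_hasSum_succ
      (f := fun k : ℕ => cCoef ℓ a k * q ^ ((m : ℕ) * k))]
    have hfun : (fun k : ℕ => cCoef ℓ a (k + 1) * q ^ ((m : ℕ) * (k + 1))) =
        fun b : ℕ => ee (((m : ℕ) : ℂ) * z - u) ^ (b + 1) -
          ee (u + ((m : ℕ) : ℂ) * z) ^ (b + 1) := by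
      funext k
      rw [e1, e2, cCoef_eq, mul_pow, mul_pow, ← pow_mul]
      ring
    rw [hfun]
    exact hs
  -- (iii) the outer sum
  have houter : HasSum (fun m : ℕ+ => cotPair z u m / (2 * π * I))
      ((bracket z u - (π : ℂ) * cot (π * u)) / (2 * π * I)) := by
    have := hsum.div_const (2 * π * I)
    exact (hasSum_pnat_iff_hasSum_succ
      (f := fun m : ℕ => cotPair z u m / (2 * π * I))).mpr this
  -- (iv) the double sum
  have hGsum : HasSum G ((bracket z u - (π : ℂ) * cot (π * u)) / (2 * π * I)) := by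
    have h1 := hsummable.hasSum
    have h2 := h1.prod_fiberwise hinner
    rw [houter.unique h2]
    exact h1
  -- (v) regroup along the divisor antidiagonals
  have hσ : HasSum (G ∘ sigmaAntidiagonalEquivProd)
      ((bracket z u - (π : ℂ) * cot (π * u)) / (2 * π * I)) :=
    (Equiv.hasSum_iff sigmaAntidiagonalEquivProd).mpr hGsum
  have hn : HasSum (fun n : ℕ+ => ∑ x : Nat.divisorsAntidiagonal (n : ℕ),
      G (sigmaAntidiagonalEquivProd ⟨n, x⟩))
      ((bracket z u - (π : ℂ) * cot (π * u)) / (2 * π * I)) :=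
    hσ.sigma fun n => hasSum_fintype _
  -- (vi) identify the inner finite sums
  have hident : ∀ n : ℕ+, ∑ x : Nat.divisorsAntidiagonal (n : ℕ),
      G (sigmaAntidiagonalEquivProd ⟨n, x⟩) = phiCoeff ℓ a n * q ^ (n : ℕ) := by
    intro n
    rw [phiCoeff_eq_sum, Finset.sum_mul]
    have e0 : ∀ x : Nat.divisorsAntidiagonal (n : ℕ),
        G (sigmaAntidiagonalEquivProd ⟨n, x⟩) = cCoef ℓ a x.1.2 * q ^ (n : ℕ) := by
      intro x
      have hx := (Nat.mem_divisorsAntidiagonal.mp x.2).1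
      simp only [hG, sigmaAntidiagonalEquivProd, divisorsAntidiagonalFactors, Equiv.coe_fn_mk,
        PNat.mk_coe, hx]
    simp only [e0]
    rw [Finset.univ_eq_attach,
      (n : ℕ).divisorsAntidiagonal.sum_attach (fun x : ℕ × ℕ => cCoef ℓ a x.2 * q ^ (n : ℕ)),
      Nat.sum_divisorsAntidiagonal' (fun _ y => cCoef ℓ a y * q ^ (n : ℕ))]
  simp only [hident] at hn
  -- (vii) back to `ℕ`
  have hfinal := (hasSum_pnat_iff_hasSum_succ
    (f := fun n : ℕ => phiCoeff ℓ a n * q ^ n)).mp hn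
  have hval : eisOne ℓ ![0, a] z / (2 * π * I) - phiConst ℓ a =
      (bracket z u - (π : ℂ) * cot (π * u)) / (2 * π * I) := by
    have hw1 : w ≠ 1 := by
      intro h1
      -- `e(u) = 1` forces `u` to be an integer
      rw [hw, ee, Complex.exp_eq_one_iff] at h1
      obtain ⟨n, hn⟩ := h1
      apply hnint n
      have : (2 : ℂ) * π * I * u = 2 * π * I * n := by rw [hn]; ring
      exact mul_left_cancel₀ h2pi this
    have hbr : eisOne ℓ ![0, a] z = bracket z u := by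
      rw [eisOne_eq_bracket]
      simp [hu]
    have hconst : phiConst ℓ a = (π : ℂ) * cot (π * u) / (2 * π * I) := by
      rw [pi_cot_eq u hw1, phiConst]
      have : Complex.exp (2 * π * I * a / ℓ) = w := by
        rw [hw, ee, hu]; congr 1; ring
      rw [this, ← hw]
      have h1 : w - 1 ≠ 0 := sub_ne_zero.mpr hw1
      have h2 : 1 - w ≠ 0 := sub_ne_zero.mpr (Ne.symm hw1)
      have hI : I ≠ 0 := I_ne_zero
      have hpi : (π : ℂ) ≠ 0 := by exact_mod_cast Real.pi_ne_zero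
      field_simp
      ring
    rw [hbr, hconst]
    ring
  rw [hval]
  convert hfinal using 2 with n
  rw [hq, ← ee_nat_mul, ee]
  push_cast
  ring_nf

end Fermat.Agent.H41.DS
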