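import Fermat.Agent.H41.DS.CotPair

/-!
# P-DS / DS-2E, part 2: boundedness at `i∞` of the weight-one Eisenstein functions

`eisOneBounded : CotExpansionStatement → EisOneTransformStatement → EisOneBoundedStatement`.
-/

set_option autoImplicit false

namespace Fermat.Agent.H41.DS

open Complex Fermat.Agent.H6.DS
open UpperHalfPlane hiding I
open scoped Real

/-- The bracket `ζ(u) - u η(1)`. -/
noncomputable def bracket (z u : ℂ) : ℂ := wzeta z u - u * eta1 z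

lemma eisOne_eq_bracket (ℓ : ℕ) (a : Fin 2 → ℤ) (z : ℂ) :
    eisOne ℓ a z = bracket z ((a 0 * z + a 1) / ℓ) - (a 0 / ℓ) * (2 * bracket z (z / 2)) := by
  unfold eisOne bracket latPt etaZ
  ring

/-- The cotangent expansion, in terms of `cotPair` and `bracket`. -/
lemma hasSum_cotPair (hcot : CotExpansionStatement) {z : ℂ} (hz : 0 < z.im) {u : ℂ}
    (hu : |u.im| < z.im) (hn : ∀ n : ℤ, u ≠ n) :
    HasSum (fun m : ℕ => cotPair z u (m + 1)) (bracket z u - (π : ℂ) * cot (π * u)) := by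
  have := hcot z hz u hu hn
  unfold cotPair bracket
  convert this using 3 with m
  all_goals push_cast; ring_nf

/-- The main bound on the bracket along `u = (a₀ z + a₁) / ℓ`, `0 ≤ a₀ < ℓ`. -/
theorem bracket_bound (hcot : CotExpansionStatement) (ℓ : ℕ) (hℓ : 2 ≤ ℓ) (a0 a1 : ℤ)
    (h0 : 0 ≤ a0) (h1 : a0 < ℓ) (hnz : a0 = 0 → ¬ (ℓ : ℤ) ∣ a1) :
    ∃ K : ℝ, 0 ≤ K ∧ ∀ z : ℂ, 1 ≤ z.im → ‖bracket z ((a0 * z + a1) / ℓ)‖ ≤ K := by
  have hℓpos : (0 : ℝ) < ℓ := by exact_mod_cast (by omega : 0 < ℓ)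
  have hℓne : (ℓ : ℂ) ≠ 0 := by exact_mod_cast (by omega : ℓ ≠ 0)
  have hpi := Real.pi_pos
  set r : ℝ := Real.exp (-(2 * π * (1 / ℓ))) with hr
  have hr0 : 0 < r := Real.exp_pos _
  have hr1 : r < 1 := by
    rw [hr, Real.exp_lt_one_iff]
    have : 0 < 2 * π * (1 / (ℓ : ℝ)) := by positivity
    linarith
  have h1r : 0 < 1 - r := by linarith
  refine ⟨4 * π / (1 - r) * (r / (1 - r)) + (π + 2 * π * (r / (1 - r))) +
    ‖(π : ℂ) * cot (π * ((a1 : ℂ) / ℓ))‖, by positivity, fun z hz => ?_⟩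
  set y := z.im with hy
  have hy0 : 0 < y := by linarith
  set u : ℂ := (a0 * z + a1) / ℓ with hu
  have a0r : (0 : ℝ) ≤ a0 := by exact_mod_cast h0
  have a0l : (a0 : ℝ) ≤ ℓ - 1 := by
    have : a0 ≤ (ℓ : ℤ) - 1 := by omega
    exact_mod_cast this
  have him : u.im = a0 * y / ℓ := by
    rw [hu]
    have e : ((a0 : ℂ) * z + a1) / ℓ = (((1 / ℓ : ℝ) : ℂ)) * ((a0 : ℝ) * z + (a1 : ℝ)) := by
      push_cast
      field_simp
    rw [e, Complex.im_ofReal_mul]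
    simp only [add_im, mul_im, ofReal_re, ofReal_im, zero_mul, add_zero]
    rw [← hy]
    field_simp
  have him0 : 0 ≤ u.im := by rw [him]; positivity
  have himlt : u.im ≤ (1 - 1 / ℓ) * y := by
    rw [him]
    have : (a0 : ℝ) / ℓ ≤ 1 - 1 / ℓ := by
      rw [div_le_iff₀ hℓpos]
      field_simp
      linarith
    calc (a0 : ℝ) * y / ℓ = (a0 : ℝ) / ℓ * y := by ring
      _ ≤ (1 - 1 / ℓ) * y := by gcongr
  have hinvl : (0 : ℝ) < 1 / ℓ := by positivity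
  have hinvl1 : (1 : ℝ) / ℓ ≤ 1 := by
    rw [div_le_one hℓpos]
    exact_mod_cast (by omega : 1 ≤ ℓ)
  have hulty : |u.im| < z.im := by
    rw [abs_of_nonneg him0]
    calc u.im ≤ (1 - 1 / ℓ) * y := himlt
      _ < 1 * y := by gcongr; linarith
      _ = z.im := by rw [one_mul]
  have hnint : ∀ n : ℤ, u ≠ n := by
    intro n hn
    rcases eq_or_lt_of_le h0 with h00 | h00
    · -- a0 = 0
      apply hnz h00.symm
      rw [hu, ← h00] at hn
      simp only [Int.cast_zero, zero_mul, zero_add] at hn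
      rw [div_eq_iff hℓne] at hn
      refine ⟨n, ?_⟩
      have : ((a1 : ℤ) : ℂ) = ((n * ℓ : ℤ) : ℂ) := by push_cast; exact hn
      have := Int.cast_injective this
      rw [this]; ring
    · have : u.im = 0 := by rw [hn]; simp
      rw [him] at this
      have hpos : 0 < (a0 : ℝ) * y / ℓ := by
        have : (0 : ℝ) < a0 := by exact_mod_cast h00
        positivity
      linarith
  have hsum := hasSum_cotPair hcot hy0 hulty hnint
  -- bound on each pair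
  have hpair : ∀ m : ℕ, ‖cotPair z u (m + 1)‖ ≤ 4 * π / (1 - r) * r ^ (m + 1) := by
    intro m
    have hm1 : ((m + 1 : ℕ) : ℝ) / ℓ ≤ (((m + 1 : ℕ) : ℂ) * z - u).im := by
      simp only [sub_im, mul_im, natCast_re, natCast_im, zero_mul, add_zero]
      have e1 : ((m + 1 : ℕ) : ℝ) * y - (1 - 1 / ℓ) * y ≤ ((m + 1 : ℕ) : ℝ) * z.im - u.im := by
        rw [← hy]; linarith
      have e2 : ((m + 1 : ℕ) : ℝ) / ℓ ≤ ((m + 1 : ℕ) : ℝ) * y - (1 - 1 / ℓ) * y := by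
        have hm : (0 : ℝ) ≤ m := Nat.cast_nonneg m
        have : ((m + 1 : ℕ) : ℝ) * y - (1 - 1 / ℓ) * y = (m + 1 / ℓ) * y := by push_cast; ring
        rw [this]
        have : ((m + 1 : ℕ) : ℝ) / ℓ = m / ℓ + 1 / ℓ := by push_cast; ring
        rw [this]
        have h3 : (m : ℝ) / ℓ ≤ m := div_le_self hm (by exact_mod_cast (by omega : 1 ≤ ℓ))
        calc (m : ℝ) / ℓ + 1 / ℓ ≤ (m + 1 / ℓ) * 1 := by linarith
          _ ≤ (m + 1 / ℓ) * y := by gcongr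
      linarith
    have hm2 : ((m + 1 : ℕ) : ℝ) / ℓ ≤ (u + ((m + 1 : ℕ) : ℂ) * z).im := by
      simp only [add_im, mul_im, natCast_re, natCast_im, zero_mul, add_zero]
      have hm : (0 : ℝ) ≤ ((m + 1 : ℕ) : ℝ) := Nat.cast_nonneg _
      have h3 : ((m + 1 : ℕ) : ℝ) / ℓ ≤ ((m + 1 : ℕ) : ℝ) :=
        div_le_self hm (by exact_mod_cast (by omega : 1 ≤ ℓ))
      have h4 : ((m + 1 : ℕ) : ℝ) * 1 ≤ ((m + 1 : ℕ) : ℝ) * z.im := by gcongr
      linarith
    have hposm : (0 : ℝ) < ((m + 1 : ℕ) : ℝ) / ℓ := by positivity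
    have hρ : Real.exp (-(2 * π * (((m + 1 : ℕ) : ℝ) / ℓ))) = r ^ (m + 1) := by
      rw [hr, ← Real.exp_nat_mul]
      congr 1
      ring
    have hρ1 : r ^ (m + 1) < 1 := pow_lt_one₀ hr0.le hr1 (by omega)
    have hρr : r ^ (m + 1) ≤ r := by
      calc r ^ (m + 1) ≤ r ^ 1 := pow_le_pow_of_le_one hr0.le hr1.le (by omega)
        _ = r := pow_one r
    have b := norm_cotPair_le z u (m + 1) hρ1 (lt_of_lt_of_le hposm hm1)
      (lt_of_lt_of_le hposm hm2) (hρ ▸ norm_ee_le_of_le_im hm1) (hρ ▸ norm_ee_le_of_le_im hm2)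
    refine b.trans ?_
    have : r ^ (m + 1) / (1 - r ^ (m + 1)) ≤ r ^ (m + 1) / (1 - r) := by
      apply div_le_div_of_nonneg_left (by positivity) h1r
      linarith
    calc 4 * π * (r ^ (m + 1) / (1 - r ^ (m + 1))) ≤ 4 * π * (r ^ (m + 1) / (1 - r)) := by gcongr
      _ = 4 * π / (1 - r) * r ^ (m + 1) := by ring
  have hgeom : HasSum (fun m : ℕ => 4 * π / (1 - r) * r ^ (m + 1))
      (4 * π / (1 - r) * (r / (1 - r))) := by
    have := (hasSum_geometric_of_lt_one hr0.le hr1).mul_left r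
    have h2 : HasSum (fun m : ℕ => r ^ (m + 1)) (r / (1 - r)) := by
      simpa [pow_succ', div_eq_mul_inv] using this
    exact h2.mul_left _
  have hT : ‖bracket z u - (π : ℂ) * cot (π * u)‖ ≤ 4 * π / (1 - r) * (r / (1 - r)) :=
    hsum.norm_le_of_bounded hgeom hpair
  -- the cotangent term
  have hcotb : ‖(π : ℂ) * cot (π * u)‖ ≤
      (π + 2 * π * (r / (1 - r))) + ‖(π : ℂ) * cot (π * ((a1 : ℂ) / ℓ))‖ := by
    rcases eq_or_lt_of_le h0 with h00 | h00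
    · have : u = (a1 : ℂ) / ℓ := by rw [hu, ← h00]; simp
      rw [this]
      have : 0 ≤ π + 2 * π * (r / (1 - r)) := by positivity
      linarith
    · have hupos : 1 / (ℓ : ℝ) ≤ u.im := by
        rw [him]
        have : (1 : ℝ) ≤ a0 := by exact_mod_cast h00
        calc 1 / (ℓ : ℝ) = 1 * 1 / ℓ := by ring
          _ ≤ a0 * y / ℓ := by gcongr
      have hupos' : 0 < u.im := lt_of_lt_of_le hinvl hupos
      rw [pi_cot_eq u (ee_ne_one_of_im_pos hupos')]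
      have hn1 : ‖ee u‖ ≤ r := norm_ee_le_of_le_im hupos
      have hn2 := norm_div_one_sub_le hn1 hr1
      have e1 : ‖(2 : ℂ) * π * I‖ = 2 * π := by simp [abs_of_pos Real.pi_pos]
      have e2 : ‖-((π : ℂ) * I)‖ = π := by simp [abs_of_pos Real.pi_pos]
      calc ‖-((π : ℂ) * I) - 2 * π * I * (ee u / (1 - ee u))‖
          ≤ ‖-((π : ℂ) * I)‖ + ‖2 * π * I * (ee u / (1 - ee u))‖ := norm_sub_le _ _
        _ = π + 2 * π * ‖ee u / (1 - ee u)‖ := by rw [e2, norm_mul, e1]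
        _ ≤ π + 2 * π * (r / (1 - r)) := by gcongr
        _ ≤ _ := by linarith [norm_nonneg ((π : ℂ) * cot (π * ((a1 : ℂ) / ℓ)))]
  calc ‖bracket z u‖ = ‖(bracket z u - (π : ℂ) * cot (π * u)) + (π : ℂ) * cot (π * u)‖ := by
        rw [sub_add_cancel]
    _ ≤ ‖bracket z u - (π : ℂ) * cot (π * u)‖ + ‖(π : ℂ) * cot (π * u)‖ := norm_add_le _ _
    _ ≤ _ := by linarith

/-- (DS-2E2) boundedness at `i∞`. -/
theorem eisOneBounded (hcot : CotExpansionStatement) (htr : EisOneTransformStatement) :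
    EisOneBoundedStatement := by
  intro ℓ hℓ a ha
  have hℓpos : (0 : ℤ) < ℓ := by exact_mod_cast (by omega : 0 < ℓ)
  have hℓposR : (0 : ℝ) < ℓ := by exact_mod_cast (by omega : 0 < ℓ)
  set a' : Fin 2 → ℤ := ![a 0 % ℓ, a 1] with ha'
  set b : Fin 2 → ℤ := ![a 0 / ℓ, 0] with hb
  have hab : a = a' + (ℓ : ℤ) • b := by
    funext i
    fin_cases i
    · simp [ha', hb, Int.emod_add_mul_ediv]
    · simp [ha', hb]
  have hnz' : NonzeroMod ℓ a' := by
    rintro ⟨h0, h1⟩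
    apply ha
    refine ⟨?_, by simpa [ha'] using h1⟩
    have h0' : (ℓ : ℤ) ∣ a 0 % ℓ := by simpa [ha'] using h0
    have := Int.emod_add_mul_ediv (a 0) ℓ
    rw [← this]
    exact dvd_add h0' (dvd_mul_right _ _)
  have hper := (htr ℓ hℓ a' hnz').2
  have h00 : 0 ≤ a 0 % ℓ := Int.emod_nonneg _ hℓpos.ne'
  have h01 : a 0 % ℓ < ℓ := Int.emod_lt_of_pos _ hℓpos
  obtain ⟨K1, hK1, hb1⟩ := bracket_bound hcot ℓ hℓ (a 0 % ℓ) (a 1) h00 h01 (by
    intro h0 h1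
    apply hnz'
    exact ⟨by simp [ha', h0], by simpa [ha'] using h1⟩)
  obtain ⟨K2, hK2, hb2⟩ := bracket_bound hcot 2 le_rfl 1 0 zero_le_one (by norm_num) (by
    intro h; exact absurd h one_ne_zero)
  rw [isBoundedAtImInfty_iff]
  refine ⟨K1 + 2 * K2, 1, fun z hz => ?_⟩
  have hz' : 1 ≤ (z : ℂ).im := hz
  show ‖eisOne ℓ a (z : ℂ)‖ ≤ _
  rw [hab, hper z b, eisOne_eq_bracket]
  have e1 : bracket (z : ℂ) ((z : ℂ) / 2) =
      bracket (z : ℂ) ((((1 : ℤ) : ℂ) * (z : ℂ) + ((0 : ℤ) : ℂ)) / ((2 : ℕ) : ℂ)) := by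
    congr 1
    push_cast
    ring
  have hB1 := hb1 (z : ℂ) hz'
  have hB2 := hb2 (z : ℂ) hz'
  rw [← e1] at hB2
  have ha0 : a' 0 = a 0 % ℓ := by simp [ha']
  have ha1 : a' 1 = a 1 := by simp [ha']
  rw [ha0, ha1]
  have hfrac : ‖((a 0 % ℓ : ℤ) : ℂ) / (ℓ : ℂ)‖ ≤ 1 := by
    rw [norm_div, Complex.norm_natCast, Complex.norm_intCast, div_le_one hℓposR]
    rw [abs_of_nonneg (by exact_mod_cast h00)]
    exact_mod_cast h01.le
  calc ‖bracket (z : ℂ) ((((a 0 % ℓ : ℤ) : ℂ) * (z : ℂ) + ((a 1 : ℤ) : ℂ)) / (ℓ : ℂ)) -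
        ((a 0 % ℓ : ℤ) : ℂ) / (ℓ : ℂ) * (2 * bracket (z : ℂ) ((z : ℂ) / 2))‖
      ≤ ‖bracket (z : ℂ) ((((a 0 % ℓ : ℤ) : ℂ) * (z : ℂ) + ((a 1 : ℤ) : ℂ)) / (ℓ : ℂ))‖ +
        ‖((a 0 % ℓ : ℤ) : ℂ) / (ℓ : ℂ) * (2 * bracket (z : ℂ) ((z : ℂ) / 2))‖ := norm_sub_le _ _
    _ ≤ K1 + 1 * (2 * K2) := by
        rw [norm_mul, norm_mul]
        have : ‖(2 : ℂ)‖ = 2 := by simp
        rw [this]
        gcongr
    _ = K1 + 2 * K2 := by ring

end Fermat.Agent.H41.DS
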