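import Mathlib
import Fermat.Agent.H6.DS.Interfaces

/-!
# P-DS / DS-2E, part 0: the cotangent in terms of `e(x) = exp (2 π i x)`

* `pi_cot_eq` : `π cot (π x) = -π i - 2 π i e(x) / (1 - e(x))`;
* `pi_cot_eq'` : `π cot (π x) = π i + 2 π i e(-x) / (1 - e(-x))`;
* `cotPair_eq` : the pair `π cot (π (u - m z)) + π cot (π (u + m z))`;
* norm bounds and geometric expansions.
-/

set_option autoImplicit false

namespace Fermat.Agent.H41.DS

open Complex
open scoped Real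

/-- `e(x) = exp (2 π i x)`. -/
noncomputable def ee (x : ℂ) : ℂ := Complex.exp (2 * π * I * x)

lemma norm_ee (x : ℂ) : ‖ee x‖ = Real.exp (-(2 * π * x.im)) := by
  rw [ee, Complex.norm_exp]
  congr 1
  simp [mul_re, mul_assoc]

lemma ee_ne_zero (x : ℂ) : ee x ≠ 0 := Complex.exp_ne_zero _

lemma ee_add (x y : ℂ) : ee (x + y) = ee x * ee y := by
  rw [ee, ee, ee, ← Complex.exp_add]; congr 1; ring

lemma ee_neg (x : ℂ) : ee (-x) = (ee x)⁻¹ := by
  rw [ee, ee, ← Complex.exp_neg]; congr 1; ring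

lemma ee_sub (x y : ℂ) : ee (x - y) = ee x * (ee y)⁻¹ := by
  rw [sub_eq_add_neg, ee_add, ee_neg]

lemma ee_nat_mul (k : ℕ) (x : ℂ) : ee (k * x) = ee x ^ k := by
  rw [ee, ee, ← Complex.exp_nat_mul]; congr 1; ring

lemma norm_ee_lt_one {x : ℂ} (hx : 0 < x.im) : ‖ee x‖ < 1 := by
  rw [norm_ee, Real.exp_lt_one_iff]
  have := Real.pi_pos
  nlinarith

lemma norm_ee_le_of_le_im {x : ℂ} {c : ℝ} (hx : c ≤ x.im) :
    ‖ee x‖ ≤ Real.exp (-(2 * π * c)) := by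
  rw [norm_ee, Real.exp_le_exp]
  have := Real.pi_pos
  nlinarith

lemma ee_ne_one_of_im_pos {x : ℂ} (hx : 0 < x.im) : ee x ≠ 1 := by
  intro h
  have := norm_ee_lt_one hx
  rw [h, norm_one] at this
  exact lt_irrefl _ this

/-- `π cot (π x) = -π i - 2 π i e(x) / (1 - e(x))`. -/
lemma pi_cot_eq (x : ℂ) (hx : ee x ≠ 1) :
    π * cot (π * x) = -(π * I) - 2 * π * I * (ee x / (1 - ee x)) := by
  rw [Complex.cot_pi_eq_exp_ratio]
  have h1 : (1 : ℂ) - ee x ≠ 0 := sub_ne_zero.mpr (Ne.symm hx)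
  show π * ((ee x + 1) / (I * (1 - ee x))) = _
  have hI : I ≠ 0 := I_ne_zero
  field_simp
  ring_nf
  rw [I_sq]
  ring

lemma cot_neg' (x : ℂ) : cot (-x) = -cot x := by
  rw [Complex.cot_eq_cos_div_sin, Complex.cot_eq_cos_div_sin, Complex.cos_neg, Complex.sin_neg,
    div_neg]

/-- `π cot (π x) = π i + 2 π i e(-x) / (1 - e(-x))`. -/
lemma pi_cot_eq' (x : ℂ) (hx : ee (-x) ≠ 1) :
    π * cot (π * x) = π * I + 2 * π * I * (ee (-x) / (1 - ee (-x))) := by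
  have h := pi_cot_eq (-x) hx
  rw [mul_neg, cot_neg', mul_neg] at h
  rw [← neg_neg (π * cot (π * x)), h]
  ring

/-- The pair of cotangents of the cotangent expansion. -/
noncomputable def cotPair (z u : ℂ) (m : ℕ) : ℂ :=
  (π : ℂ) * cot (π * (u - m * z)) + (π : ℂ) * cot (π * (u + m * z))

lemma cotPair_eq (z u : ℂ) (m : ℕ) (h1 : 0 < (m * z - u).im) (h2 : 0 < (u + m * z).im) :
    cotPair z u m = 2 * π * I * (ee (m * z - u) / (1 - ee (m * z - u)) -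
      ee (u + m * z) / (1 - ee (u + m * z))) := by
  rw [cotPair, pi_cot_eq (u + m * z) (ee_ne_one_of_im_pos h2),
    pi_cot_eq' (u - m * z) (by rw [neg_sub]; exact ee_ne_one_of_im_pos h1), neg_sub]
  ring

lemma norm_div_one_sub_le {e : ℂ} {ρ : ℝ} (he : ‖e‖ ≤ ρ) (hρ : ρ < 1) :
    ‖e / (1 - e)‖ ≤ ρ / (1 - ρ) := by
  have h1 : 1 - ρ ≤ ‖1 - e‖ := by
    have := norm_sub_norm_le (1 : ℂ) e
    rw [norm_one] at this
    linarith
  have h2 : 0 < 1 - ρ := by linarith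
  rw [norm_div]
  exact div_le_div₀ ((norm_nonneg _).trans he) he h2 h1

lemma norm_cotPair_le (z u : ℂ) (m : ℕ) {ρ : ℝ} (hρ : ρ < 1)
    (h1 : 0 < (m * z - u).im) (h2 : 0 < (u + m * z).im)
    (h1' : ‖ee (m * z - u)‖ ≤ ρ) (h2' : ‖ee (u + m * z)‖ ≤ ρ) :
    ‖cotPair z u m‖ ≤ 4 * π * (ρ / (1 - ρ)) := by
  rw [cotPair_eq z u m h1 h2, norm_mul]
  have e1 : ‖(2 : ℂ) * π * I‖ = 2 * π := by
    simp [abs_of_pos Real.pi_pos]
  rw [e1]
  have := norm_sub_le (ee (m * z - u) / (1 - ee (m * z - u)))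
    (ee (u + m * z) / (1 - ee (u + m * z)))
  have b1 := norm_div_one_sub_le h1' hρ
  have b2 := norm_div_one_sub_le h2' hρ
  have hpi := Real.pi_pos
  calc 2 * π * ‖ee (m * z - u) / (1 - ee (m * z - u)) -
        ee (u + m * z) / (1 - ee (u + m * z))‖
      ≤ 2 * π * (ρ / (1 - ρ) + ρ / (1 - ρ)) := by
        apply mul_le_mul_of_nonneg_left _ (by positivity)
        linarith
    _ = 4 * π * (ρ / (1 - ρ)) := by ring

/-- Geometric expansion: `e / (1 - e) = ∑_{k ≥ 0} e ^ (k + 1)`. -/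
lemma hasSum_pow_succ {e : ℂ} (he : ‖e‖ < 1) :
    HasSum (fun k : ℕ => e ^ (k + 1)) (e / (1 - e)) := by
  have := (hasSum_geometric_of_norm_lt_one he).mul_left e
  simpa [pow_succ', div_eq_mul_inv] using this

end Fermat.Agent.H41.DS
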