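import Mathlib
import Fermat.Agent.H98.DS.DepletionInterfaces

/-!
# P-DS / DS-2c-step, part 1: the translation matrices `[1, x; 0, 1]` and their conjugation
relations with `Γ₀(N r)`.
-/

set_option autoImplicit false
set_option linter.unusedSimpArgs false

open UpperHalfPlane CongruenceSubgroup ModularFormClass Matrix Matrix.SpecialLinearGroup
open scoped MatrixGroups ModularForm

namespace Fermat.Agent.H41.DS

/-- The translation matrix `[1, x; 0, 1]`. -/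
noncomputable def tmat (x : ℝ) : GL (Fin 2) ℝ := Matrix.GeneralLinearGroup.upperRightHom x

lemma tmat_smul (x : ℝ) (τ : ℍ) : tmat x • τ = x +ᵥ τ := by
  ext
  simp [tmat, σ, num, denom, coe_vadd, UpperHalfPlane.coe_smul, add_comm]

lemma slash_tmat (f : ℍ → ℂ) (k : ℤ) (x : ℝ) (τ : ℍ) : (f ∣[k] tmat x) τ = f (x +ᵥ τ) := by
  have h := tmat_smul x τ
  simp_rw [ModularForm.slash_def, h]
  simp [tmat, σ, denom, GeneralLinearGroup.val_det_apply]

lemma σ_tmat (x : ℝ) (c : ℂ) : σ (tmat x) c = c := by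
  simp [tmat, σ, GeneralLinearGroup.val_det_apply]

lemma smul_slash_tmat (k : ℤ) (x : ℝ) (f : ℍ → ℂ) (c : ℂ) :
    (c • f) ∣[k] tmat x = c • (f ∣[k] tmat x) := by
  rw [ModularForm.smul_slash, σ_tmat]

/-- The key conjugation relation: for `γ ∈ Γ₀(N r)`, `r ∣ N` and integers `j`, `j'` with
`r ∣ j d - j' a`, the matrix `α_j γ α_{j'}⁻¹` is in `Γ₀(N)`, with the same diagonal modulo `N`. -/
theorem exists_conj_tmat (N r : ℕ) (hr0 : r ≠ 0) (hrN : r ∣ N) (γ : SL(2, ℤ))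
    (hγ : γ ∈ Gamma0 (N * r)) (j j' : ℤ) (hjj : (r : ℤ) ∣ j * γ 1 1 - j' * γ 0 0) :
    ∃ γ' : SL(2, ℤ), γ' ∈ Gamma0 N ∧
      (((γ' 1 1 : ℤ)) : ZMod N) = (((γ 1 1 : ℤ)) : ZMod N) ∧
      (((γ' 0 0 : ℤ)) : ZMod N) = (((γ 0 0 : ℤ)) : ZMod N) ∧
      tmat (j / r) * (mapGL ℝ γ : GL (Fin 2) ℝ) = (mapGL ℝ γ' : GL (Fin 2) ℝ) * tmat (j' / r) := by
  obtain ⟨N₀, hN₀⟩ := hrN
  rw [Gamma0_mem] at hγ
  have hc : ((N * r : ℕ) : ℤ) ∣ γ 1 0 := (ZMod.intCast_zmod_eq_zero_iff_dvd _ _).mp hγ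
  obtain ⟨c₀, hc₀⟩ := hc
  obtain ⟨t, ht⟩ := hjj
  have hdet : γ 0 0 * γ 1 1 - γ 0 1 * γ 1 0 = 1 := by
    have := γ.2
    rwa [Matrix.det_fin_two] at this
  set a := γ 0 0 with ha
  set b := γ 0 1 with hb
  set c := γ 1 0 with hc
  set d := γ 1 1 with hd
  have hNr : (N : ℤ) = r * N₀ := by exact_mod_cast hN₀
  have hc₀' : c = N * r * c₀ := by rw [hc₀]; push_cast; ring
  have hdet' : (a + j * (N * c₀)) * (d - j' * (N * c₀)) -
      (b + t - j * j' * (N₀ * c₀)) * c = 1 := by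
    rw [hc₀']
    have e1 : (N : ℤ) * c₀ * (j * d - j' * a) = (N : ℤ) * c₀ * (r * t) := by rw [ht]
    have hc₀'' := hc₀'
    rw [hc₀''] at hdet
    linear_combination hdet + e1 - (j * j' * N * c₀ * c₀) * hNr
  let γ' : SL(2, ℤ) := ⟨!![a + j * (N * c₀), b + t - j * j' * (N₀ * c₀); c, d - j' * (N * c₀)], by
    rw [Matrix.det_fin_two_of]; exact hdet'⟩
  have h00 : γ' 0 0 = a + j * (N * c₀) := rfl
  have h01 : γ' 0 1 = b + t - j * j' * (N₀ * c₀) := rfl
  have h10 : γ' 1 0 = c := rfl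
  have h11 : γ' 1 1 = d - j' * (N * c₀) := rfl
  refine ⟨γ', ?_, ?_, ?_, ?_⟩
  · rw [Gamma0_mem, h10, hc₀']
    push_cast
    simp
  · rw [h11]
    push_cast
    simp
  · rw [h00]
    push_cast
    simp
  · have hr : (r : ℝ) ≠ 0 := by exact_mod_cast hr0
    have htR : (j : ℝ) * d - j' * a = r * t := by exact_mod_cast ht
    have hNR : (N : ℝ) = r * N₀ := by exact_mod_cast hNr
    have hcR : (c : ℝ) = N * r * c₀ := by exact_mod_cast hc₀'
    apply Units.ext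
    ext i k
    fin_cases i <;> fin_cases k
    · simp [tmat, Matrix.mul_apply, Fin.sum_univ_two, h00, h10, ← ha, ← hc]
      rw [hcR]; field_simp
    · simp [tmat, Matrix.mul_apply, Fin.sum_univ_two, h00, h01, ← hb, ← hd]
      have : (t : ℝ) = ((j : ℝ) * d - j' * a) / r := by rw [htR]; field_simp
      rw [this, hNR]
      field_simp
      ring
    · simp [tmat, Matrix.mul_apply, Fin.sum_univ_two, h10, ← hc]
    · simp [tmat, Matrix.mul_apply, Fin.sum_univ_two, h10, h11, ← hc, ← hd]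
      rw [hcR]; field_simp
      ring

end Fermat.Agent.H41.DS
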